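/-
Programme T1B (row 38 / S44), cell R2/BRANDT, W4 (iii-a) (helper33), part 1: **the formal identities
of the test unit** `h0S R a = U_4² U_{2a} / (U_2 U_{4a}²)` (`TestElt79/Series.lean`),
`U_δ = Δ(q^δ)/Δ(q)`, i.e. `h0S R a = F(q)/F(q^a)` with `F = Δ(q⁴)²/Δ(q²)`:

* `qExpand_h0S_mul`  : `h0S a (q^b) · h0S b (q) = h0S a (q) · h0S b (q^a)`   (any commutative ring);
* `qExpand_char_int` : `y(q^p) = y(q)^p` for the reduction of an integral series, `char κ = p`;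
* `qExpand_h0S_char` : `h0S b (q^p) = (h0S b)^p`                             (`char κ = p`);
* `qExpand_h0S_eq`   : `h0S p (q^ℓ) = h0S p · (h0S ℓ)^(p-1)`                  (`char κ = p`);
* `h0S_char_eq_pow`  : `h0S p = (Δ(q²)/Δ(q⁴)²)^(p-1)`                         (`char κ = p`).
-/
import Mathlib
import Fermat.Agent.T1B.TestElt79.Series
import Fermat.Agent.ES.KRON.KronCong24

set_option autoImplicit false
set_option linter.unusedSectionVars false
set_option linter.style.haveILetI false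

open ModularCurve HahnSeries

noncomputable section

namespace Fermat.Agent.T1B.AuxUnit33

open Fermat.Agent.T1B.TestElt79
open Fermat.Agent.IG.PR.Interface20 Fermat.Agent.RED.BASE.DeltaMem19

/-! ### `Δ(q^n)` and `Δ(q^n)⁻¹` indexed by a plain natural number -/

section Delta

variable (R : Type*) [CommRing R]

/-- `Δ(q^n)` (`1` for `n = 0`). -/
def dE (n : ℕ) : LaurentSeries R :=
  if h : n = 0 then 1 else (haveI : NeZero n := ⟨h⟩; qExpand R n (deltaq R))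

/-- `Δ(q^n)⁻¹` (`1` for `n = 0`). -/
def dEi (n : ℕ) : LaurentSeries R :=
  if h : n = 0 then 1 else (haveI : NeZero n := ⟨h⟩; qExpand R n (deltaqInv R))

theorem dE_eq (n : ℕ) [hn : NeZero n] : dE R n = qExpand R n (deltaq R) := by
  rw [dE, dif_neg hn.ne]

theorem dEi_eq (n : ℕ) [hn : NeZero n] : dEi R n = qExpand R n (deltaqInv R) := by
  rw [dEi, dif_neg hn.ne]

theorem dE_mul_dEi (n : ℕ) : dE R n * dEi R n = 1 := by
  by_cases h : n = 0
  · rw [dE, dEi, dif_pos h, dif_pos h, one_mul]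
  · haveI : NeZero n := ⟨h⟩
    rw [dE_eq, dEi_eq, ← map_mul, deltaq_mul_deltaqInv, map_one]

theorem qExpand_dE (m n : ℕ) [NeZero m] [hn : NeZero n] :
    qExpand R m (dE R n) = dE R (m * n) := by
  rw [dE_eq, dE_eq, qExpand_qExpand]

theorem qExpand_dEi (m n : ℕ) [NeZero m] [hn : NeZero n] :
    qExpand R m (dEi R n) = dEi R (m * n) := by
  rw [dEi_eq, dEi_eq, qExpand_qExpand]

theorem dE_one : dE R 1 = deltaq R := by
  rw [dE_eq, qExpand_one_apply]

theorem dEi_one : dEi R 1 = deltaqInv R := by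
  rw [dEi_eq, qExpand_one_apply]

theorem uq_eq_dE (n : ℕ) [NeZero n] : uq R n = dE R n * dEi R 1 := by
  rw [uq, dE_eq, dEi_one]

theorem uqInv_eq_dE (n : ℕ) [NeZero n] : uqInv n R = dE R 1 * dEi R n := by
  rw [uqInv, dEi_eq, dE_one]

variable {R} {S : Type*} [CommRing S] (φ : R →+* S)

theorem coeffMap_dE (n : ℕ) : coeffMap φ (dE R n) = dE S n := by
  by_cases h : n = 0
  · rw [dE, dE, dif_pos h, dif_pos h, map_one]
  · haveI : NeZero n := ⟨h⟩
    rw [dE_eq, dE_eq, ModularCurve.coeffMap_qExpand,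
      Fermat.Agent.IG.AN.DeltaQuotExp19.coeffMap_deltaq]

theorem coeffMap_dEi (n : ℕ) : coeffMap φ (dEi R n) = dEi S n := by
  by_cases h : n = 0
  · rw [dEi, dEi, dif_pos h, dif_pos h, map_one]
  · haveI : NeZero n := ⟨h⟩
    rw [dEi_eq, dEi_eq, ModularCurve.coeffMap_qExpand,
      Fermat.Agent.IG.AN.DeltaQuotExp19.coeffMap_deltaqInv]

end Delta

/-! ### the test unit as a quotient of `Δ`'s -/

section Formal

variable (R : Type*) [CommRing R]

/-- `h0S a = Δ(q⁴)² Δ(q^{2a}) / (Δ(q²) Δ(q^{4a})²)`. -/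
theorem h0S_eq_dE (a : ℕ) [NeZero a] :
    h0S R a = dE R 4 ^ 2 * dE R (2 * a) * (dEi R 2 * dEi R (4 * a) ^ 2) := by
  have h1 := dE_mul_dEi R 1
  rw [h0S, uq_eq_dE, uq_eq_dE, uqInv_eq_dE, uqInv_eq_dE]
  calc (dE R 4 * dEi R 1) ^ 2 * (dE R (2 * a) * dEi R 1) *
        (dE R 1 * dEi R 2 * (dE R 1 * dEi R (4 * a)) ^ 2)
      = (dE R 1 * dEi R 1) ^ 3 *
          (dE R 4 ^ 2 * dE R (2 * a) * (dEi R 2 * dEi R (4 * a) ^ 2)) := by ring
    _ = _ := by rw [h1, one_pow, one_mul]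

/-- the arrangement of the factors used in `AuxUnit79`. -/
theorem h0S_eq (a : ℕ) [NeZero a] :
    h0S R a = uq R (2 * a) * uq R 4 ^ 2 * uqInv 2 R * uqInv (4 * a) R ^ 2 := by
  unfold h0S
  ring

/-- `h0S a (q^b)`. -/
theorem qExpand_h0S_eq_dE (a b : ℕ) [NeZero a] [NeZero b] :
    qExpand R b (h0S R a) =
      dE R (4 * b) ^ 2 * dE R (2 * (a * b)) * (dEi R (2 * b) * dEi R (4 * (a * b)) ^ 2) := by
  rw [h0S_eq_dE, map_mul, map_mul, map_mul, map_pow, map_pow, qExpand_dE, qExpand_dE, qExpand_dEi,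
    qExpand_dEi]
  have e1 : b * 4 = 4 * b := Nat.mul_comm _ _
  have e2 : b * (2 * a) = 2 * (a * b) := by ring
  have e3 : b * 2 = 2 * b := Nat.mul_comm _ _
  have e4 : b * (4 * a) = 4 * (a * b) := by ring
  rw [e1, e2, e3, e4]

/-- **The symmetric identity** `h0S a (q^b) · h0S b = h0S a · h0S b (q^a)`
(both sides are `F(q)/F(q^{ab})`, `F = Δ(q⁴)²/Δ(q²)`). -/
theorem qExpand_h0S_mul (a b : ℕ) [NeZero a] [NeZero b] :
    qExpand R b (h0S R a) * h0S R b = h0S R a * qExpand R a (h0S R b) := by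
  rw [qExpand_h0S_eq_dE R a b, qExpand_h0S_eq_dE R b a, h0S_eq_dE R a, h0S_eq_dE R b,
    Nat.mul_comm b a]
  have h4b := dE_mul_dEi R (4 * b)
  have h2b := dE_mul_dEi R (2 * b)
  have h4a := dE_mul_dEi R (4 * a)
  have h2a := dE_mul_dEi R (2 * a)
  calc dE R (4 * b) ^ 2 * dE R (2 * (a * b)) * (dEi R (2 * b) * dEi R (4 * (a * b)) ^ 2) *
        (dE R 4 ^ 2 * dE R (2 * b) * (dEi R 2 * dEi R (4 * b) ^ 2))
      = (dE R (4 * b) * dEi R (4 * b)) ^ 2 * (dE R (2 * b) * dEi R (2 * b)) *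
          (dE R (2 * (a * b)) * dEi R (4 * (a * b)) ^ 2 * (dE R 4 ^ 2 * dEi R 2)) := by ring
    _ = (dE R (4 * a) * dEi R (4 * a)) ^ 2 * (dE R (2 * a) * dEi R (2 * a)) *
          (dE R (2 * (a * b)) * dEi R (4 * (a * b)) ^ 2 * (dE R 4 ^ 2 * dEi R 2)) := by
        rw [h4b, h2b, h4a, h2a]
    _ = _ := by ring

end Formal

/-! ### characteristic `p` -/

section CharP

variable (κ : Type*) [CommRing κ] (p : ℕ) [hp : Fact p.Prime] [CharP κ p]

/-- **Frobenius**: `y(q^p) = y(q)^p` for the reduction of a series with integer coefficients. -/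
theorem qExpand_char_int (y : LaurentSeries ℤ) :
    haveI : NeZero p := ⟨hp.out.ne_zero⟩
    qExpand κ p (coeffMap (Int.castRingHom κ) y) = coeffMap (Int.castRingHom κ) y ^ p := by
  haveI : NeZero p := ⟨hp.out.ne_zero⟩
  rw [Fermat.Agent.ES.KRON.KronCong24.pow_char p, coeffMap_coeffMap]
  have e : (frobenius κ p).comp (Int.castRingHom κ) = Int.castRingHom κ := RingHom.ext_int _ _
  rw [e]

variable [NeZero p]

theorem dE_mul_char (n : ℕ) : dE κ (p * n) = dE κ n ^ p := by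
  by_cases h : n = 0
  · subst h
    rw [Nat.mul_zero, dE, dif_pos rfl, one_pow]
  · haveI : NeZero n := ⟨h⟩
    rw [← qExpand_dE, ← coeffMap_dE (Int.castRingHom κ) n]
    exact (qExpand_congr rfl _).trans (qExpand_char_int κ p (dE ℤ n))

theorem dEi_mul_char (n : ℕ) : dEi κ (p * n) = dEi κ n ^ p := by
  by_cases h : n = 0
  · subst h
    rw [Nat.mul_zero, dEi, dif_pos rfl, one_pow]
  · haveI : NeZero n := ⟨h⟩
    rw [← qExpand_dEi, ← coeffMap_dEi (Int.castRingHom κ) n]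
    exact (qExpand_congr rfl _).trans (qExpand_char_int κ p (dEi ℤ n))

/-- `h0S b (q^p) = (h0S b)^p` in characteristic `p`. -/
theorem qExpand_h0S_char (b : ℕ) [NeZero b] : qExpand κ p (h0S κ b) = h0S κ b ^ p := by
  rw [← coeffMap_h0S b (Int.castRingHom κ)]
  exact (qExpand_congr rfl _).trans (qExpand_char_int κ p (h0S ℤ b))

/-- **The reduced identity, series form**: `h0S p (q^ℓ) = h0S p · (h0S ℓ)^(p-1)`. -/
theorem qExpand_h0S_eq (l : ℕ) [NeZero l] :
    qExpand κ l (h0S κ p) = h0S κ p * h0S κ l ^ (p - 1) := by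
  have h1 := qExpand_h0S_mul κ p l
  rw [qExpand_h0S_char κ p l, ← pow_sub_one_mul hp.out.ne_zero (h0S κ l)] at h1
  have h2 := h0S_mul_h0Sinv κ l
  calc qExpand κ l (h0S κ p)
      = qExpand κ l (h0S κ p) * h0S κ l * h0Sinv κ l := by rw [mul_assoc, h2, mul_one]
    _ = h0S κ p * (h0S κ l ^ (p - 1) * h0S κ l) * h0Sinv κ l := by rw [h1]
    _ = h0S κ p * h0S κ l ^ (p - 1) * (h0S κ l * h0Sinv κ l) := by ring
    _ = _ := by rw [h2, mul_one]

/-- `res₁(h0) = (Δ̄(q²)/Δ̄(q⁴)²)^(p-1)`: the test unit of level `p` in characteristic `p`. -/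
theorem h0S_char_eq_pow : h0S κ p = (dE κ 2 * dEi κ 4 ^ 2) ^ (p - 1) := by
  have e2 : 2 * p = p * 2 := Nat.mul_comm _ _
  have e4 : 4 * p = p * 4 := Nat.mul_comm _ _
  rw [h0S_eq_dE, e2, e4, dE_mul_char, dEi_mul_char,
    ← pow_sub_one_mul hp.out.ne_zero (dE κ 2), ← pow_sub_one_mul hp.out.ne_zero (dEi κ 4)]
  have h4 := dE_mul_dEi κ 4
  have h2 := dE_mul_dEi κ 2
  generalize p - 1 = m
  calc dE κ 4 ^ 2 * (dE κ 2 ^ m * dE κ 2) * (dEi κ 2 * (dEi κ 4 ^ m * dEi κ 4) ^ 2)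
      = (dE κ 4 * dEi κ 4) ^ 2 * (dE κ 2 * dEi κ 2) * (dE κ 2 * dEi κ 4 ^ 2) ^ m := by ring
    _ = _ := by rw [h4, h2, one_pow, one_mul, one_mul]

/-- the same with `qExpand`. -/
theorem h0S_char_eq_pow' :
    h0S κ p = (qExpand κ 2 (deltaq κ) * qExpand κ 4 (deltaqInv κ) ^ 2) ^ (p - 1) := by
  rw [h0S_char_eq_pow κ p, dE_eq, dEi_eq]

end CharP

end Fermat.Agent.T1B.AuxUnit33
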