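/-
Programme T1B (row 38 / S44), cell R2/BRANDT, W4 (iii-a) (helper33), part 3: **the test element in the
Gauss ring of the `q`-expansion at `∞`** (`Hecke3/GaussVal` vocabulary: `gaussSub A (iotaHom N)`,
`gaussRes`), `A` a valuation subring of `ℚbar`, `κ̄ = Kap A`:

* `isIntRep_h0F`, `h0F_mem_gaussSub` : `h0F N q h ∈ O_N` (integer `q`-series, denominator `1`);
* `gaussRes_h0F`  : its residue is the formal series `h0S κ̄ q` (for ANY `u : O_N` with `↑u = h0F`:
  so `res₁ ⟨h0F, _⟩` has `q`-series `h0S κ̄ q` for `Brandt14.resO` and `Hol80.resK` alike);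
* `h0S_mem_fullC` : for `A` over `p`, `4 ℓ ∣ L`, `p ∤ L`: `h0S κ̄ ℓ ∈ modularFunctionFieldFullC κ̄ L`
  (RESFIELD-ID `Hecke16.gaussRes_mem_fullC_four` at level `L p`): this is `Ū` for `L = M' ℓ`;
* `h0S_self_mem_fullC` : for `4 ∣ M'`, `p ∤ M'`: `h0S κ̄ p ∈ modularFunctionFieldFullC κ̄ M'`: this is `D̄`.
-/
import Mathlib
import Fermat.Agent.T1B.AuxUnit33.Formal
import Fermat.Agent.T1B.Hecke3.DeltaX0
import Fermat.Agent.T1B.Hecke16.ResFieldX0

set_option autoImplicit false
set_option linter.unusedSectionVars false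

open ModularCurve HahnSeries

noncomputable section

namespace Fermat.Agent.T1B.AuxUnit33

open Fermat.Agent.X0 Fermat.Agent.T1B.Hecke3 Fermat.Agent.T1B.Hecke16
open Fermat.Agent.T1B.TestElt79

variable (A : ValuationSubring Kbar)

section Gauss

variable (N q : ℕ) [NeZero N] [NeZero q] (h : 4 * q ∣ N)

/-- the test element has the integer `q`-series `h0S` (denominator `1`). -/
theorem isIntRep_h0F : IsIntRep A (iotaHom N) (h0F N q h) (h0S ↥A q) 1 := by
  refine ⟨by rw [map_one]; exact one_ne_zero, ?_⟩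
  rw [map_one, mul_one, iotaHom_apply, coe_h0F, coeffMap_h0S]

/-- the test element lies in the Gauss ring. -/
theorem h0F_mem_gaussSub : h0F N q h ∈ gaussSub A (iotaHom N) :=
  ⟨_, _, isIntRep_h0F A N q h⟩

/-- **the residue of the test element is `h0S κ̄ q`.** -/
theorem gaussRes_h0F (u : gaussSub A (iotaHom N)) (hu : (u : FF N) = h0F N q h) :
    gaussRes A (iotaHom N) u = h0S (Kap A) q := by
  have h1 : IsIntRep A (iotaHom N) (u : FF N) (h0S ↥A q) 1 := by
    rw [hu]
    exact isIntRep_h0F A N q h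
  rw [gaussRes_eq h1, map_one, div_one, coeffMap_h0S]

theorem gaussRes_h0F' :
    gaussRes A (iotaHom N) ⟨h0F N q h, h0F_mem_gaussSub A N q h⟩ = h0S (Kap A) q :=
  gaussRes_h0F A N q h _ rfl

end Gauss

section Mem

variable {p : ℕ} [NeZero p] (hp : p.Prime) (hA : A.LiesOverPrime p)

include hp hA in
/-- **`Ū`**: the reduction of the modular unit of level `L ⊇ 4ℓ` prime to `p` is a modular function
of level `L` over `κ̄`. -/
theorem h0S_mem_fullC (L l : ℕ) [NeZero L] [NeZero l] (h4l : 4 * l ∣ L) (hpL : ¬ p ∣ L) :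
    h0S (Kap A) l ∈ modularFunctionFieldFullC (Kap A) L := by
  have h4 : 4 ∣ L := (Dvd.intro l rfl).trans h4l
  have h' : 4 * l ∣ L * p := h4l.mul_right p
  rw [← gaussRes_h0F' A (L * p) l h']
  exact gaussRes_mem_fullC_four A hp hpL h4 hA (iotaHom (L * p)) (fun _ => rfl) _

include hp hA in
/-- **`D̄`**: `res₁ h0 ∈ k₁`. -/
theorem h0S_self_mem_fullC (M' : ℕ) [NeZero M'] (h4 : 4 ∣ M') (hpM : ¬ p ∣ M') :
    h0S (Kap A) p ∈ modularFunctionFieldFullC (Kap A) M' := by
  have h' : 4 * p ∣ M' * p := Nat.mul_dvd_mul_right h4 p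
  rw [← gaussRes_h0F' A (M' * p) p h']
  exact gaussRes_mem_fullC_four A hp hpM h4 hA (iotaHom (M' * p)) (fun _ => rfl) _

end Mem

end Fermat.Agent.T1B.AuxUnit33
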