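/-
Programme T1B (row 38 / S44), cell R2/BRANDT, W4 (iii-a) (helper33), part 2: **THE REDUCED IDENTITY
`β̄ D̄ = ᾱ D̄ · Ū^(p-1)`** in `k₁' = modularFunctionFieldFullC κ (M' ℓ)`, `char κ = p`, for

* `D̄ ∈ k₁ = modularFunctionFieldFullC κ M'` with `q`-series `h0S κ p` (`= res₁ h0`, `h0` the test
  element of `TestElt79`, see `Gauss.lean`), and
* `Ū ∈ k₁'` with `q`-series `h0S κ ℓ` (the same test unit with `p` replaced by `ℓ`: the reduction of
  the modular unit `U = U_4² U_{2ℓ}/(U_2 U_{4ℓ}²)` of the good level `M' ℓ`),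

`ᾱ, β̄ = Hecke87.CharPX0.alphaC, betaC`; and the consequence `hQ` of `Brandt36/MainFin`:
`ord_w Ū = 0 → ord_w (β̄ D̄) = ord_w (ᾱ D̄)`.
-/
import Mathlib
import Fermat.Agent.T1B.AuxUnit33.Formal
import Fermat.Agent.T1B.Hecke87.CharPX0

set_option autoImplicit false
set_option linter.unusedSectionVars false

open ModularCurve HahnSeries AlgebraicCurve

noncomputable section

namespace Fermat.Agent.T1B.AuxUnit33

open Fermat.Agent.T1B.TestElt79 Fermat.Agent.T1B.Hecke87.CharPX0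

section Main

variable (κ : Type*) [Field κ] (p : ℕ) [hp : Fact p.Prime] [CharP κ p] [NeZero p]
  (M' l : ℕ) [NeZero M'] [NeZero l]
  (D : ↥(modularFunctionFieldFullC κ M')) (hD : (D : LaurentSeries κ) = h0S κ p)
  (U : ↥(modularFunctionFieldFullC κ (M' * l))) (hU : (U : LaurentSeries κ) = h0S κ l)

include hD hU in
/-- **W4 (iii-a): `β̄ D̄ = ᾱ D̄ · Ū^(p-1)`.** -/
theorem betaC_eq_alphaC_mul : betaC κ M' l D = alphaC κ M' l D * U ^ (p - 1) := by
  apply Subtype.ext
  rw [coe_betaC, MulMemClass.coe_mul, SubmonoidClass.coe_pow, coe_alphaC, hD, hU]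
  exact qExpand_h0S_eq κ p l

include hD in
theorem D_ne_zero : D ≠ 0 := by
  intro h0
  have h1 := h0S_mul_h0Sinv κ p
  rw [← hD, h0] at h1
  simp at h1

include hU in
theorem U_ne_zero : U ≠ 0 := by
  intro h0
  have h1 := h0S_mul_h0Sinv κ l
  rw [← hU, h0] at h1
  simp at h1

include hD hU in
/-- the order of `β̄ D̄` at a place of `k₁'`. -/
theorem ord_betaC_eq_add (w : Place κ ↥(modularFunctionFieldFullC κ (M' * l))) :
    w.ord (betaC κ M' l D) = w.ord (alphaC κ M' l D) + ((p - 1 : ℕ) : ℤ) * w.ord U := by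
  have hD0 := D_ne_zero κ p M' D hD
  have hU0 := U_ne_zero κ M' l U hU
  have hα : alphaC κ M' l D ≠ 0 := (map_ne_zero_iff _ (alphaC κ M' l).toRingHom.injective).mpr hD0
  rw [betaC_eq_alphaC_mul κ p M' l D hD U hU, w.ord_mul hα (pow_ne_zero _ hU0),
    ← zpow_natCast, w.ord_zpow]

include hD hU in
/-- **the hypothesis `hQ` of `Brandt36/MainFin.brandtS_one_of_aux`** at a place where `Ū` is a unit. -/
theorem ord_betaC_eq_ord_alphaC (w : Place κ ↥(modularFunctionFieldFullC κ (M' * l)))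
    (hw : w.ord U = 0) : w.ord (betaC κ M' l D) = w.ord (alphaC κ M' l D) := by
  rw [ord_betaC_eq_add κ p M' l D hD U hU w, hw, mul_zero, add_zero]

end Main

end Fermat.Agent.T1B.AuxUnit33
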