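/-
Programme T1B (row 38 / S44), cell R2/BRANDT, W4 (iii-gen) (helper33, second seat of helper79):
**THE REDUCTION OF A MODULAR UNIT IS A UNIT OFF THE REDUCED CUSPS.**

`N` a good level (`4 ∣ N`, `p ∤ N`), `A ⊂ ℚbar` a valuation ring over `p`, `κ = kA A`,
`F̃ = modularFunctionFieldFullC κ N`, `t̃ = tq κ 4 8 ∈ F̃` the reduced Hauptmodul.  For an `A`-integral
`y ∈ A((q))`, `ũ = coeffMap A.subtype y ∈ FF N`, with `ȳ ≠ 0` and divisor supported at the cusps
(`hunit : 0 ≤ ord_P j → ord_P ũ = 0`): at every place `w` of `F̃` with `t̃ ∈ O_w` and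
`ord_w (t̃ - c̄) = 0` for every finite cusp value `c` of `t` (`cvT 4 8 N γ = some c`, `c ∈ A`):

    `ord_w ȳ = 0`.

Proof: the divisor formula `div ȳ = r_* div ũ` of the place reduction `r = T.r` of the two-chart model
(`HolGeom93.IsModel`) gives `P` with `r P = w`, `ord_P ũ ≠ 0`; `P` is a cusp place `cuspPlace g`
(`CuspSurj.exists_cuspPlace_eq`); `t̃ ∈ O_{rP}` puts `P` in chart 0 (`inChart0_of_red_mem`) and
`t̃(w) = res (t(P))` (`valueHom_rAt`); finally `t(P)` is the cusp value `cvT 4 8 N g⁻¹`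
(`cvE_T_eq_value`).
-/
import Mathlib
import Fermat.Agent.T1B.HolGeom93.Norm
import Fermat.Agent.T1B.HGeom33.Values
import Fermat.Agent.T1B.HGeom33.Chart
import Fermat.Agent.X0.CuspSurj
import Fermat.Agent.RED.BASE.CuspExpMain11

set_option autoImplicit false
set_option linter.unusedSectionVars false
set_option linter.style.haveILetI false
set_option synthInstance.maxHeartbeats 400000

open AlgebraicCurve ModularCurve HahnSeries
open scoped MatrixGroups IntermediateField
open scoped Fermat.Agent.T1B.HGeom33.InfBar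

noncomputable section

namespace Fermat.Agent.T1B.AuxUnit33.OrdUnit

open Fermat.Agent.X0 Fermat.Agent.X0.FF Fermat.Agent.ES.RED.PlaceValue13
open Fermat.Agent.ES.RED.Contract8 Fermat.Agent.ES.RED.TwoCharts8 Fermat.Agent.ES.RED.RedMain15
open Fermat.Agent.ES.RED.GaloisInst21
open Fermat.Agent.RED.BASE.EtaQuot12 Fermat.Agent.RED.BASE.Interface12
open Fermat.Agent.RED.BASE.CuspExpMain11
open Fermat.Agent.T1B.HolGeom93

/-! ### the value of a function at a cusp place is the constant term of its cusp expansion -/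

section CuspValue

variable {N : ℕ} [NeZero N]

/-- **cusp values**: if `f` is regular at the cusp place of `g`, its value there is the constant term
of the expansion `T g⁻¹ f`, which is a power series. -/
theorem cvE_T_eq_value {x : FF N} (hx : IsGen Kbar x) (g : SL(2, ℤ)) (f : FF N)
    (hf : f ∈ (cuspPlace (CuspGood.good (cuspData N)) g).toValuationSubring) :
    cvE ((cuspData N).T g⁻¹ f) =
      some (valueHom hx (cuspPlace (CuspGood.good (cuspData N)) g) ⟨f, hf⟩) := by
  have hC := CuspGood.good (cuspData N)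
  set c : Kbar := valueHom hx (cuspPlace (CuspGood.good (cuspData N)) g) ⟨f, hf⟩ with hc
  have hval := (valueHom_eq_iff hx (cuspPlace (CuspGood.good (cuspData N)) g) ⟨f, hf⟩ c).mp rfl
  -- the coefficients of index `≤ 0` are those of the constant `c`
  have hE : ∀ n : ℤ, n ≤ 0 →
      ((cuspData N).T g⁻¹ f).coeff n = (HahnSeries.C c : LaurentSeries Kbar).coeff n := by
    rcases hval with h | h
    · intro n _
      have h' : f = algebraMap Kbar (FF N) c := h
      rw [h', hC.map_const]
    · obtain ⟨m, hm, hspec, -⟩ := cuspPlace_spec hC g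
      have hne : f - algebraMap Kbar (FF N) c ≠ 0 := by
        intro h0
        rw [h0, Place.ord_zero] at h
        exact lt_irrefl _ h
      have h1 := hspec _ hne
      rw [map_sub, hC.map_const] at h1
      have hpos : 0 < ((cuspData N).T g⁻¹ f - HahnSeries.C c).order := by
        rw [h1]
        have hm' : (0 : ℤ) < m := by exact_mod_cast hm
        exact mul_pos hm' h
      intro n hn
      have h2 := HahnSeries.coeff_eq_zero_of_lt_order (lt_of_le_of_lt hn hpos)
      rw [HahnSeries.coeff_sub, sub_eq_zero] at h2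
      exact h2
  have hneg : ∀ n : ℤ, n < 0 → ((cuspData N).T g⁻¹ f).coeff n = 0 := by
    intro n hn
    rw [hE n hn.le, HahnSeries.C_apply, HahnSeries.coeff_single_of_ne hn.ne]
  obtain ⟨Q, hQ, hQ0⟩ := Fermat.Agent.T1B.HGeom33.Chart.exists_powerSeries hneg
  rw [hQ, cvE_ofPS, hQ0, hE 0 le_rfl, HahnSeries.C_apply, HahnSeries.coeff_single_same]

/-- the cusp value function `cvT` at a cusp place at which `t` is regular. -/
theorem cvT_eq_value {x : FF N} (hx : IsGen Kbar x) (n e : ℕ) [NeZero n] (hmem : TMem n e N)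
    (g : SL(2, ℤ))
    (hf : tF N hmem ∈ (cuspPlace (CuspGood.good (cuspData N)) g).toValuationSubring) :
    cvT n e N g⁻¹ =
      some (valueHom hx (cuspPlace (CuspGood.good (cuspData N)) g) ⟨tF N hmem, hf⟩) := by
  rw [cvT_eq n e N hmem g⁻¹]
  exact cvE_T_eq_value hx g _ hf

/-- the same for a place known to be the cusp place of `g`. -/
theorem cvT_eq_value_of_eq {x : FF N} (hx : IsGen Kbar x) (n e : ℕ) [NeZero n] (hmem : TMem n e N)
    (g : SL(2, ℤ)) (P : Place Kbar (FF N))
    (hg : cuspPlace (CuspGood.good (cuspData N)) g = P)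
    (hf : tF N hmem ∈ P.toValuationSubring) :
    cvT n e N g⁻¹ = some (valueHom hx P ⟨tF N hmem, hf⟩) := by
  subst hg
  exact cvT_eq_value hx n e hmem g hf

end CuspValue

/-! ### the main lemma on the model -/

section Model

variable {A : ValuationSubring Kbar} {N : ℕ} [NeZero N]
  {x : FF N} {hx : IsGen Kbar x} {T : TwoCharts A hx ↥(modularFunctionFieldFullC (kA A) N)}

/-- **(iii-gen) on the two-chart model.** -/
theorem ord_red_eq_zero_of_model [IsAlgClosed (kA A)] (hT : IsModel A N T) (hmem : TMem 4 8 N)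
    (y : LaurentSeries ↥A) (hy : coeffMap A.subtype y ∈ modularFunctionFieldBar N)
    (hne : coeffMap (IsLocalRing.residue ↥A) y ≠ 0)
    (hunit : ∀ P : Place Kbar (FF N), 0 ≤ P.ord (jF N) →
      P.ord (⟨coeffMap A.subtype y, hy⟩ : FF N) = 0)
    (w : Place (kA A) ↥(modularFunctionFieldFullC (kA A) N))
    (hw : T.S0.red T.S0.sB ∈ w.toValuationSubring)
    (hcv : ∀ (γ : SL(2, ℤ)) (c : ↥A), cvT 4 8 N γ = some (c : Kbar) →
      w.ord (T.S0.red T.S0.sB -
        algebraMap (kA A) ↥(modularFunctionFieldFullC (kA A) N) (IsLocalRing.residue ↥A c)) = 0) :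
    w.ord (⟨coeffMap (IsLocalRing.residue ↥A) y, hT.mem y hy⟩ :
      ↥(modularFunctionFieldFullC (kA A) N)) = 0 := by
  classical
  by_contra hord
  have hr : IsPlaceReductionAlong A (IsLocalRing.residue ↥A) N T.r := hT.red
  have hf0 : (⟨coeffMap A.subtype y, hy⟩ : FF N) ≠ 0 :=
    Fermat.Agent.T1B.HGeom33.Values.ne_zero_of_red_ne_zero hy hne
  haveI := Fermat.Agent.RED.TOP.FbarFacts20.hasPrincipalDivisors_bar N
  obtain ⟨D, hD, -⟩ := HasPrincipalDivisors.exists_divisor (K := Kbar)
    (⟨coeffMap A.subtype y, hy⟩ : FF N) hf0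
  have key := hr.2 y hy (hT.mem y hy) hne D hD w
  rw [Fermat.Agent.T1B.HGeom33.Values.mapDomain_apply_eq_sum] at key
  -- a place over `w` in the support of the divisor
  obtain ⟨P, hPs, hP⟩ : ∃ P ∈ D.support, (if T.r P = w then D P else 0) ≠ 0 := by
    by_contra hno
    push Not at hno
    rw [Finset.sum_eq_zero hno] at key
    exact hord key.symm
  have hrP : T.r P = w := by
    by_contra h
    rw [if_neg h] at hP
    exact hP rfl
  rw [if_pos hrP, hD P] at hP
  subst hrP
  -- `P` is a cusp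
  have hj : P.ord (jF N) < 0 := by
    by_contra h
    exact hP (hunit P (not_lt.mp h))
  have hC := CuspGood.good (cuspData N)
  have hcard := Degree.card_eq_finrank_adjoin N (realizeData N) (cuspData N)
  haveI : FiniteDimensional Kbar⟮jF N⟯ (FF N) :=
    (Degree.isGen_jF N (realizeData N) (cuspData N)).finite
  obtain ⟨g, hg⟩ := CuspSurj.exists_cuspPlace_eq hC hcard P hj
  -- `P` lies in chart 0 and `t̃(r P) = res (t(P))`
  have hxt : IsGen (kA A) (T.S0.red T.S0.sB) := hT.in0.gent
  have h0 : T.S0.InChart P := T.inChart0_of_red_mem hxt _ hw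
  set c : ↥A := T.S0.ev P h0 T.S0.sB with hc
  have hvalue : valueHom hxt (T.r P) ⟨T.S0.red T.S0.sB, hw⟩ = IsLocalRing.residue ↥A c := by
    have h1 := valueHom_rAt hxt T.places0 T.tr0 P h0 T.S0.sB
    rw [ChartSpec.chi_apply] at h1
    rw [← h1]
    exact Fermat.Agent.T1B.HGeom33.Chart.valueHom_congr_place hxt (T.r_eq0 P h0) _ _ _
  -- the value `c = t(P)` is a cusp value
  have hs : T.S0.s = tF N hmem := Subtype.ext hT.coe_s0
  have hcvT : cvT 4 8 N g⁻¹ = some (c : Kbar) := by
    have hmemP : tF N hmem ∈ P.toValuationSubring := by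
      rw [← hs]
      exact h0.1
    rw [cvT_eq_value_of_eq hx 4 8 hmem g P hg hmemP, hc, T.S0.coe_ev P h0 T.S0.sB]
    congr 2
    exact Subtype.ext hs.symm
  have hzero := hcv g⁻¹ c hcvT
  rcases (valueHom_eq_iff hxt _ ⟨T.S0.red T.S0.sB, hw⟩ (IsLocalRing.residue ↥A c)).mp hvalue
    with h | h
  · -- `t̃` would be constant
    apply T.tr0
    have h' : T.S0.red T.S0.sB =
        algebraMap (kA A) ↥(modularFunctionFieldFullC (kA A) N) (IsLocalRing.residue ↥A c) := h
    rw [h']
    exact isAlgebraic_algebraMap _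
  · have h' : 0 < (T.r P).ord (T.S0.red T.S0.sB -
        algebraMap (kA A) ↥(modularFunctionFieldFullC (kA A) N) (IsLocalRing.residue ↥A c)) := h
    rw [hzero] at h'
    exact lt_irrefl _ h'

end Model

/-! ### the unconditional statement -/

section Final

variable (A : ValuationSubring Kbar) (N : ℕ) [NeZero N]

/-- **W4 (iii-gen)**: the reduction of an `A`-integral modular unit of the good level `N` has order
`0` at every place of `F̃_N` at which `t̃` is finite and not a reduced finite cusp value. -/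
theorem ord_red_eq_zero_of_modular_unit {p : ℕ} (hp : p.Prime) (h4 : 4 ∣ N) (hpN : ¬ p ∣ N)
    (hA : A.LiesOverPrime p)
    (y : LaurentSeries ↥A) (hy : coeffMap A.subtype y ∈ modularFunctionFieldBar N)
    (hyk : coeffMap (IsLocalRing.residue ↥A) y ∈ modularFunctionFieldFullC (kA A) N)
    (hne : coeffMap (IsLocalRing.residue ↥A) y ≠ 0)
    (hunit : ∀ P : Place Kbar (FF N), 0 ≤ P.ord (jF N) →
      P.ord (⟨coeffMap A.subtype y, hy⟩ : FF N) = 0)
    (tb : ↥(modularFunctionFieldFullC (kA A) N))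
    (htb : (tb : LaurentSeries (kA A)) = tq (kA A) 4 8)
    (w : Place (kA A) ↥(modularFunctionFieldFullC (kA A) N))
    (hw : tb ∈ w.toValuationSubring)
    (hcv : ∀ (γ : SL(2, ℤ)) (c : ↥A), cvT 4 8 N γ = some (c : Kbar) →
      w.ord (tb - algebraMap (kA A) ↥(modularFunctionFieldFullC (kA A) N)
        (IsLocalRing.residue ↥A c)) = 0) :
    w.ord (⟨coeffMap (IsLocalRing.residue ↥A) y, hyk⟩ :
      ↥(modularFunctionFieldFullC (kA A) N)) = 0 := by
  obtain ⟨x, hx, T, hT⟩ := exists_model A N hp h4 hpN hA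
  haveI := isAlgClosed_kA A
  have hmem : TMem 4 8 N := Fermat.Agent.RED.BASE.Hauptmodul12.tMem_of_dvd Fermat.Agent.RED.BASE.Hauptmodul12.baseHyp_four h4
  have htb' : T.S0.red T.S0.sB = tb := Subtype.ext ((red_s0_eq hT).trans htb.symm)
  exact ord_red_eq_zero_of_model hT hmem y hy hne hunit w (htb' ▸ hw)
    (fun γ c h => by rw [htb']; exact hcv γ c h)

end Final

end Fermat.Agent.T1B.AuxUnit33.OrdUnit
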