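/-
Programme T1B (row 38 / S44), cell R2/BRANDT, W4 (iii) (helper33, second seat of helper79):
**THE REDUCED MODULAR UNIT `Ū` HAS ORDER `0` OFF THE REDUCED CUSPS.**

`N` a good level (`p ∤ N`) with `4 ℓ ∣ N` (e.g. `N = M' ℓ`, `4 ∣ M'`), `A ⊂ ℚbar` over `p`, `κ = kA A`.
`U = U_4² U_{2ℓ}/(U_2 U_{4ℓ}²) = h0F N ℓ` (`TestElt79`) is a modular unit of level `N`
(`ord_h0F_point`), with integer `q`-series `h0S · ℓ`.  For ANY `Ū ∈ F̃_N` with `q`-series `h0S κ ℓ`:

    `t̃ ∈ O_w → (∀ γ c, cvT 4 8 N γ = some c → ord_w (t̃ - c̄) = 0) → ord_w Ū = 0`.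

Together with `AuxUnit33/Main.ord_betaC_eq_ord_alphaC` this is the hypothesis `hQ` of
`Brandt36/MainFin.brandtS_one_of_aux` at the places `w` of `k₁'` off the reduced cusps.
-/
import Mathlib
import Fermat.Agent.T1B.AuxUnit33.OrdUnit
import Fermat.Agent.T1B.TestElt79.Series

set_option autoImplicit false
set_option linter.unusedSectionVars false
set_option linter.style.haveILetI false
set_option synthInstance.maxHeartbeats 400000

open AlgebraicCurve ModularCurve HahnSeries
open scoped MatrixGroups IntermediateField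
open scoped Fermat.Agent.T1B.HGeom33.InfBar

noncomputable section

namespace Fermat.Agent.T1B.AuxUnit33.OrdUnit

open Fermat.Agent.X0 Fermat.Agent.X0.FF
open Fermat.Agent.ES.RED.Contract8
open Fermat.Agent.RED.BASE.EtaQuot12 Fermat.Agent.RED.BASE.Interface12
open Fermat.Agent.RED.BASE.CuspExpMain11 Fermat.Agent.RED.BASE.NoElliptic14
open Fermat.Agent.T1B.TestElt79

variable (A : ValuationSubring Kbar) (N l : ℕ) [NeZero N] [NeZero l]

/-- the integer series of the modular unit lies in `FF N`. -/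
theorem coeffMap_h0S_mem (h : 4 * l ∣ N) :
    coeffMap A.subtype (h0S ↥A l) ∈ modularFunctionFieldBar N := by
  rw [coeffMap_h0S, ← coe_h0F N l h]
  exact (h0F N l h).2

theorem h0S_ne_zero (κ : Type*) [Field κ] : h0S κ l ≠ 0 := by
  intro h0
  have h1 := h0S_mul_h0Sinv κ l
  rw [h0, zero_mul] at h1
  exact zero_ne_one h1

/-- **W4 (iii)**: the reduction `Ū` of the modular unit `U = U_4² U_{2ℓ}/(U_2 U_{4ℓ}²)` of the good
level `N` has order `0` at every place of `F̃_N` at which `t̃` is finite and not a reduced finite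
cusp value. -/
theorem ord_U_eq_zero {p : ℕ} (hp : p.Prime) (hA : A.LiesOverPrime p) (h : 4 * l ∣ N)
    (hpN : ¬ p ∣ N)
    (U : ↥(modularFunctionFieldFullC (kA A) N))
    (hU : (U : LaurentSeries (kA A)) = h0S (kA A) l)
    (tb : ↥(modularFunctionFieldFullC (kA A) N))
    (htb : (tb : LaurentSeries (kA A)) = tq (kA A) 4 8)
    (w : Place (kA A) ↥(modularFunctionFieldFullC (kA A) N))
    (hw : tb ∈ w.toValuationSubring)
    (hcv : ∀ (γ : SL(2, ℤ)) (c : ↥A), cvT 4 8 N γ = some (c : Kbar) →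
      w.ord (tb - algebraMap (kA A) ↥(modularFunctionFieldFullC (kA A) N)
        (IsLocalRing.residue ↥A c)) = 0) :
    w.ord U = 0 := by
  have h4 : 4 ∣ N := (Dvd.intro l rfl).trans h
  have hy := coeffMap_h0S_mem A N l h
  have hred : coeffMap (IsLocalRing.residue ↥A) (h0S ↥A l) = h0S (kA A) l := coeffMap_h0S l _
  have hyk : coeffMap (IsLocalRing.residue ↥A) (h0S ↥A l) ∈ modularFunctionFieldFullC (kA A) N := by
    rw [hred, ← hU]
    exact U.2
  have hne : coeffMap (IsLocalRing.residue ↥A) (h0S ↥A l) ≠ 0 := by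
    rw [hred]
    exact h0S_ne_zero l (kA A)
  have hfe : (⟨coeffMap A.subtype (h0S ↥A l), hy⟩ : FF N) = h0F N l h :=
    Subtype.ext ((coeffMap_h0S l A.subtype).trans (coe_h0F N l h).symm)
  have hunit : ∀ P : Place Kbar (FF N), 0 ≤ P.ord (jF N) →
      P.ord (⟨coeffMap A.subtype (h0S ↥A l), hy⟩ : FF N) = 0 := by
    intro P hP
    rw [hfe]
    exact ord_h0F_point N l h (nuTwo_eq_zero_of_four_dvd h4) (nuThree_eq_zero_of_four_dvd h4) P hP
  have key := ord_red_eq_zero_of_modular_unit A N hp h4 hpN hA (h0S ↥A l) hy hyk hne hunit tb htb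
    w hw hcv
  have hUe : U = ⟨coeffMap (IsLocalRing.residue ↥A) (h0S ↥A l), hyk⟩ :=
    Subtype.ext (hU.trans hred.symm)
  rw [hUe]
  exact key

end Fermat.Agent.T1B.AuxUnit33.OrdUnit
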