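/-
Programme T1B (row 38 / S44), cell R2/BRANDT, W4 (iii), FINAL FORM (helper33): **`Ū` IS A UNIT WHEREVER
`t̃` IS FINITE** — no cusp-value hypothesis.

The test unit `U = h0F N ℓ = U_4² U_{2ℓ}/(U_2 U_{4ℓ}²)` has its divisor over `t = ∞` only
(`TestElt79.ord_h0F_eq_zero`), so the divisor formula `div Ū = r_* div U` of the two-chart model and
the tube closure `t̃ ∈ O_{rP} → t ∈ O_P` (`TwoCharts.inChart0_of_red_mem`) give

    `ord_U_eq_zero_of_reg : t̃ ∈ O_w → ord_w Ū = 0`

for every place `w` of `F̃_N = modularFunctionFieldFullC κ N`, `N` a good level with `4 ℓ ∣ N`, `ℓ` an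
odd prime, and ANY `Ū ∈ F̃_N` with `q`-series `h0S κ ℓ`, ANY `t̃ ∈ F̃_N` with `q`-series `tq κ 4 8`.
-/
import Mathlib
import Fermat.Agent.T1B.AuxUnit33.OrdUnitInst

set_option autoImplicit false
set_option linter.unusedSectionVars false
set_option linter.style.haveILetI false
set_option synthInstance.maxHeartbeats 400000

open AlgebraicCurve ModularCurve HahnSeries
open scoped MatrixGroups IntermediateField
open scoped Fermat.Agent.T1B.HGeom33.InfBar

noncomputable section

namespace Fermat.Agent.T1B.AuxUnit33.OrdUnit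

open Fermat.Agent.X0 Fermat.Agent.X0.FF Fermat.Agent.ES.RED.PlaceValue13
open Fermat.Agent.ES.RED.Contract8 Fermat.Agent.ES.RED.TwoCharts8 Fermat.Agent.ES.RED.RedMain15
open Fermat.Agent.ES.RED.GaloisInst21
open Fermat.Agent.RED.BASE.EtaQuot12 Fermat.Agent.RED.BASE.Interface12
open Fermat.Agent.RED.BASE.NoElliptic14
open Fermat.Agent.T1B.HolGeom93 Fermat.Agent.T1B.TestElt79

section Model

variable {A : ValuationSubring Kbar} {N : ℕ} [NeZero N]
  {x : FF N} {hx : IsGen Kbar x} {T : TwoCharts A hx ↥(modularFunctionFieldFullC (kA A) N)}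

/-- **(iii-gen), strong form on the model**: an `A`-integral function which is a unit wherever `t`
is finite reduces to a unit wherever `t̃` is finite. -/
theorem ord_red_eq_zero_of_model_of_reg [IsAlgClosed (kA A)] (hT : IsModel A N T)
    (y : LaurentSeries ↥A) (hy : coeffMap A.subtype y ∈ modularFunctionFieldBar N)
    (hne : coeffMap (IsLocalRing.residue ↥A) y ≠ 0)
    (hunit : ∀ P : Place Kbar (FF N), T.S0.s ∈ P.toValuationSubring →
      P.ord (⟨coeffMap A.subtype y, hy⟩ : FF N) = 0)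
    (w : Place (kA A) ↥(modularFunctionFieldFullC (kA A) N))
    (hw : T.S0.red T.S0.sB ∈ w.toValuationSubring) :
    w.ord (⟨coeffMap (IsLocalRing.residue ↥A) y, hT.mem y hy⟩ :
      ↥(modularFunctionFieldFullC (kA A) N)) = 0 := by
  classical
  by_contra hord
  have hr : IsPlaceReductionAlong A (IsLocalRing.residue ↥A) N T.r := hT.red
  have hf0 : (⟨coeffMap A.subtype y, hy⟩ : FF N) ≠ 0 :=
    Fermat.Agent.T1B.HGeom33.Values.ne_zero_of_red_ne_zero hy hne
  haveI := Fermat.Agent.RED.TOP.FbarFacts20.hasPrincipalDivisors_bar N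
  obtain ⟨D, hD, -⟩ := HasPrincipalDivisors.exists_divisor (K := Kbar)
    (⟨coeffMap A.subtype y, hy⟩ : FF N) hf0
  have key := hr.2 y hy (hT.mem y hy) hne D hD w
  rw [Fermat.Agent.T1B.HGeom33.Values.mapDomain_apply_eq_sum] at key
  obtain ⟨P, hPs, hP⟩ : ∃ P ∈ D.support, (if T.r P = w then D P else 0) ≠ 0 := by
    by_contra hno
    push Not at hno
    rw [Finset.sum_eq_zero hno] at key
    exact hord key.symm
  have hrP : T.r P = w := by
    by_contra h
    rw [if_neg h] at hP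
    exact hP rfl
  rw [if_pos hrP, hD P] at hP
  subst hrP
  have hxt : IsGen (kA A) (T.S0.red T.S0.sB) := hT.in0.gent
  have h0 : T.S0.InChart P := T.inChart0_of_red_mem hxt _ hw
  exact hP (hunit P h0.1)

end Model

section Final

variable (A : ValuationSubring Kbar) (N : ℕ) [NeZero N]

/-- **W4 (iii-gen), strong form.** -/
theorem ord_red_eq_zero_of_unit_of_reg {p : ℕ} (hp : p.Prime) (h4 : 4 ∣ N) (hpN : ¬ p ∣ N)
    (hA : A.LiesOverPrime p) (hmem : TMem 4 8 N)
    (y : LaurentSeries ↥A) (hy : coeffMap A.subtype y ∈ modularFunctionFieldBar N)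
    (hyk : coeffMap (IsLocalRing.residue ↥A) y ∈ modularFunctionFieldFullC (kA A) N)
    (hne : coeffMap (IsLocalRing.residue ↥A) y ≠ 0)
    (hunit : ∀ P : Place Kbar (FF N), tF N hmem ∈ P.toValuationSubring →
      P.ord (⟨coeffMap A.subtype y, hy⟩ : FF N) = 0)
    (tb : ↥(modularFunctionFieldFullC (kA A) N))
    (htb : (tb : LaurentSeries (kA A)) = tq (kA A) 4 8)
    (w : Place (kA A) ↥(modularFunctionFieldFullC (kA A) N))
    (hw : tb ∈ w.toValuationSubring) :
    w.ord (⟨coeffMap (IsLocalRing.residue ↥A) y, hyk⟩ :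
      ↥(modularFunctionFieldFullC (kA A) N)) = 0 := by
  obtain ⟨x, hx, T, hT⟩ := exists_model A N hp h4 hpN hA
  haveI := isAlgClosed_kA A
  have htb' : T.S0.red T.S0.sB = tb := Subtype.ext ((red_s0_eq hT).trans htb.symm)
  have hs : T.S0.s = tF N hmem := Subtype.ext hT.coe_s0
  exact ord_red_eq_zero_of_model_of_reg hT y hy hne (fun P hP => hunit P (hs ▸ hP)) w
    (htb' ▸ hw)

variable (l : ℕ) [NeZero l]

/-- **W4 (iii), final form**: `t̃ ∈ O_w → ord_w Ū = 0`. -/
theorem ord_U_eq_zero_of_reg {p : ℕ} (hp : p.Prime) (hA : A.LiesOverPrime p) (h : 4 * l ∣ N)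
    (hpN : ¬ p ∣ N) (hl : l.Prime) (hl2 : l ≠ 2)
    (U : ↥(modularFunctionFieldFullC (kA A) N))
    (hU : (U : LaurentSeries (kA A)) = h0S (kA A) l)
    (tb : ↥(modularFunctionFieldFullC (kA A) N))
    (htb : (tb : LaurentSeries (kA A)) = tq (kA A) 4 8)
    (w : Place (kA A) ↥(modularFunctionFieldFullC (kA A) N))
    (hw : tb ∈ w.toValuationSubring) :
    w.ord U = 0 := by
  have h4 : 4 ∣ N := (Dvd.intro l rfl).trans h
  have hmem : TMem 4 8 N :=
    Fermat.Agent.RED.BASE.Hauptmodul12.tMem_of_dvd Fermat.Agent.RED.BASE.Hauptmodul12.baseHyp_four h4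
  have hy := coeffMap_h0S_mem A N l h
  have hred : coeffMap (IsLocalRing.residue ↥A) (h0S ↥A l) = h0S (kA A) l := coeffMap_h0S l _
  have hyk : coeffMap (IsLocalRing.residue ↥A) (h0S ↥A l) ∈ modularFunctionFieldFullC (kA A) N := by
    rw [hred, ← hU]
    exact U.2
  have hne : coeffMap (IsLocalRing.residue ↥A) (h0S ↥A l) ≠ 0 := by
    rw [hred]
    exact h0S_ne_zero l (kA A)
  have hfe : (⟨coeffMap A.subtype (h0S ↥A l), hy⟩ : FF N) = h0F N l h :=
    Subtype.ext ((coeffMap_h0S l A.subtype).trans (coe_h0F N l h).symm)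
  have hunit : ∀ P : Place Kbar (FF N), tF N hmem ∈ P.toValuationSubring →
      P.ord (⟨coeffMap A.subtype (h0S ↥A l), hy⟩ : FF N) = 0 := by
    intro P hP
    rw [hfe]
    exact ord_h0F_eq_zero N l h hl hl2 hmem (nuTwo_eq_zero_of_four_dvd h4)
      (nuThree_eq_zero_of_four_dvd h4) P hP
  have key := ord_red_eq_zero_of_unit_of_reg A N hp h4 hpN hA hmem (h0S ↥A l) hy hyk hne hunit
    tb htb w hw
  have hUe : U = ⟨coeffMap (IsLocalRing.residue ↥A) (h0S ↥A l), hyk⟩ :=
    Subtype.ext (hU.trans hred.symm)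
  rw [hUe]
  exact key

end Final

end Fermat.Agent.T1B.AuxUnit33.OrdUnit
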